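import Mathlib

set_option autoImplicit false
set_option linter.style.haveILetI false

namespace Fermat.Agent.S49

open scoped IsMulCommutative

/-- Abstract Deligne–Serre lifting. -/
theorem abstract_lift {V : Type*} [AddCommGroup V] [Module ℂ V] [FiniteDimensional ℂ V]
    {R : Type*} [CommRing R] [Algebra.IsIntegral ℤ R] (ρ : R →+* Module.End ℂ V)
    (hρ : Function.Injective ρ) (I : Ideal R) (hI : I ≠ ⊤) :
    ∃ (v : V) (lam : R →+* integralClosure ℤ ℂ) (𝔪 : Ideal (integralClosure ℤ ℂ)),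
      v ≠ 0 ∧ 𝔪.IsMaximal ∧
      (∀ T, ρ T v = ((lam T : integralClosure ℤ ℂ) : ℂ) • v) ∧ ∀ T ∈ I, lam T ∈ 𝔪 := by
  classical
  -- the complex algebra generated by the image
  let A : Subalgebra ℂ (Module.End ℂ V) := Algebra.adjoin ℂ (Set.range ρ)
  haveI hcomm : IsMulCommutative A := Algebra.isMulCommutative_adjoin ℂ (by
    rintro _ ⟨a, rfl⟩ _ ⟨b, rfl⟩
    rw [← map_mul, ← map_mul, mul_comm])
  letI : CommRing A := inferInstance
  haveI : FiniteDimensional ℂ A := inferInstance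
  haveI : IsArtinianRing A := IsArtinianRing.of_finite ℂ A
  haveI : IsNoetherianRing A := IsNoetherianRing.of_finite ℂ A
  let ι : R →+* A := ρ.codRestrict A (fun x => Algebra.subset_adjoin ⟨x, rfl⟩)
  have hι : Function.Injective ι := fun x y h => hρ (congrArg Subtype.val h)
  obtain ⟨𝔪₁, hmax, hle⟩ := Ideal.exists_le_maximal I hI
  obtain ⟨𝔭, hpmin, hple⟩ := Ideal.exists_minimalPrimes_le (bot_le : (⊥ : Ideal R) ≤ 𝔪₁)
  obtain ⟨𝔮, hqprime, hqcomap⟩ := Ideal.exists_comap_eq_of_mem_minimalPrimes_of_injective hι 𝔭 hpmin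
  haveI := hqprime
  haveI hqmax : 𝔮.IsMaximal := inferInstance
  -- the character
  letI : Field (A ⧸ 𝔮) := Ideal.Quotient.field 𝔮
  have hbij : Function.Bijective (algebraMap ℂ (A ⧸ 𝔮)) :=
    IsAlgClosed.algebraMap_bijective_of_isIntegral
  let e : ℂ ≃+* (A ⧸ 𝔮) := RingEquiv.ofBijective (algebraMap ℂ (A ⧸ 𝔮)) hbij
  let χ : A →+* ℂ := (e.symm : (A ⧸ 𝔮) →+* ℂ).comp (Ideal.Quotient.mk 𝔮)
  have hχker : ∀ x : A, χ x = 0 ↔ x ∈ 𝔮 := by
    intro x
    simp only [χ, RingHom.comp_apply, RingHom.coe_coe]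
    rw [map_eq_zero_iff _ e.symm.injective, Ideal.Quotient.eq_zero_iff_mem]
  have hχalg : ∀ c : ℂ, χ (algebraMap ℂ A c) = c := by
    intro c
    simp only [χ, RingHom.comp_apply, RingHom.coe_coe]
    rw [RingEquiv.symm_apply_eq]
    rfl
  -- 𝔮 is an associated prime of A
  have hqmin : 𝔮 ∈ (Module.annihilator A A).minimalPrimes := by
    refine ⟨⟨hqprime, ?_⟩, ?_⟩
    · intro x hx
      have : x = 0 := by
        have := Module.mem_annihilator.mp hx 1
        simpa using this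
      rw [this]; exact zero_mem _
    · rintro 𝔮' ⟨h𝔮', -⟩ hle'
      haveI := h𝔮'
      have : 𝔮'.IsMaximal := inferInstance
      exact (this.eq_of_le hqmax.ne_top hle').ge
  have hass := Module.associatedPrimes.minimalPrimes_annihilator_subset_associatedPrimes A A hqmin
  obtain ⟨-, a, ha⟩ := (isAssociatedPrime_iff (R := A) (M := A)).mp hass
  have hmem : ∀ x : A, x ∈ 𝔮 ↔ x * a = 0 := by
    intro x
    rw [ha, Submodule.mem_colon_singleton, Submodule.mem_bot, smul_eq_mul]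
  have ha0 : a ≠ 0 := by
    intro h0
    apply hqmax.ne_top
    rw [Ideal.eq_top_iff_one, hmem, h0, mul_zero]
  have ha0' : (a : Module.End ℂ V) ≠ 0 := fun h => ha0 (Subtype.ext h)
  obtain ⟨w, hw⟩ : ∃ w, (a : Module.End ℂ V) w ≠ 0 := by
    by_contra hcon
    push Not at hcon
    exact ha0' (LinearMap.ext hcon)
  have heig : ∀ x : A, (x : Module.End ℂ V) ((a : Module.End ℂ V) w) = χ x • ((a : Module.End ℂ V) w) := by
    intro x
    have h1 : x - algebraMap ℂ A (χ x) ∈ 𝔮 := by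
      rw [← hχker, map_sub, hχalg, sub_self]
    have h2 := (hmem _).mp h1
    have h3 : ((x - algebraMap ℂ A (χ x)) * a : A).1 w = 0 := by rw [h2]; rfl
    have h4 : ((x - algebraMap ℂ A (χ x)) * a : A).1 w
        = (x : Module.End ℂ V) ((a : Module.End ℂ V) w) - χ x • ((a : Module.End ℂ V) w) := by
      simp [sub_mul, Algebra.algebraMap_eq_smul_one]
    rw [h4] at h3
    exact sub_eq_zero.mp h3
  -- the integral character
  let φ : R →+* ℂ := χ.comp ι
  have hφint : ∀ T : R, φ T ∈ integralClosure ℤ ℂ := by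
    intro T
    exact (Algebra.IsIntegral.isIntegral (R := ℤ) T).map φ.toIntAlgHom
  let lam : R →+* integralClosure ℤ ℂ := φ.codRestrict (integralClosure ℤ ℂ) hφint
  have hlamker : RingHom.ker lam ≤ 𝔪₁ := by
    intro T hT
    apply hple
    rw [← hqcomap, Ideal.mem_comap, ← hχker]
    exact congrArg Subtype.val (RingHom.mem_ker.mp hT)
  letI : Algebra R (integralClosure ℤ ℂ) := lam.toAlgebra
  haveI : IsScalarTower ℤ R (integralClosure ℤ ℂ) := IsScalarTower.of_algebraMap_eq (fun x => by simp)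
  haveI : Algebra.IsIntegral ℤ (integralClosure ℤ ℂ) := inferInstance
  haveI : Algebra.IsIntegral R (integralClosure ℤ ℂ) := Algebra.IsIntegral.tower_top ℤ
  obtain ⟨𝔪', hm'max, hm'comap⟩ := Ideal.exists_ideal_over_maximal_of_isIntegral
    (S := integralClosure ℤ ℂ) 𝔪₁ hlamker
  refine ⟨(a : Module.End ℂ V) w, lam, 𝔪', hw, hm'max, fun T => heig (ι T), fun T hT => ?_⟩
  have : T ∈ 𝔪'.comap (algebraMap R (integralClosure ℤ ℂ)) := by rw [hm'comap]; exact hle hT
  exact this

end Fermat.Agent.S49
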