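import Mathlib

set_option autoImplicit false

namespace Fermat.Agent.S49

/-- prime power step of multiplicativity for a formal Hecke eigen-sequence. -/
theorem seq_pp (c e : ℕ → ℂ) (h1 : c 1 = 1)
    (h : ∀ ℓ : ℕ, ℓ.Prime → ∀ n : ℕ,
      c (n * ℓ) + (if ℓ ∣ n then e ℓ * c (n / ℓ) else 0) = c ℓ * c n)
    (ℓ : ℕ) (hℓ : ℓ.Prime) (n : ℕ) (hn : ¬ ℓ ∣ n) : ∀ r : ℕ, c (ℓ ^ r * n) = c (ℓ ^ r) * c n
  | 0 => by simp [h1]
  | 1 => by
    have := h ℓ hℓ n
    rw [if_neg hn, add_zero] at this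
    rw [pow_one, mul_comm ℓ n]; exact this
  | r + 2 => by
    have ih1 := seq_pp c e h1 h ℓ hℓ n hn (r + 1)
    have ih0 := seq_pp c e h1 h ℓ hℓ n hn r
    have A := h ℓ hℓ (ℓ ^ (r + 1) * n)
    have B := h ℓ hℓ (ℓ ^ (r + 1))
    have hd1 : ℓ ∣ ℓ ^ (r + 1) * n := Dvd.dvd.mul_right (dvd_pow_self ℓ (Nat.succ_ne_zero r)) n
    have hd2 : ℓ ∣ ℓ ^ (r + 1) := dvd_pow_self ℓ (Nat.succ_ne_zero r)
    rw [if_pos hd1] at A
    rw [if_pos hd2] at B
    have e1 : ℓ ^ (r + 1) * n * ℓ = ℓ ^ (r + 2) * n := by ring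
    have e2 : ℓ ^ (r + 1) * n / ℓ = ℓ ^ r * n := by
      rw [pow_succ, mul_assoc, mul_comm ℓ n, ← mul_assoc]
      exact Nat.mul_div_cancel _ hℓ.pos
    have e3 : ℓ ^ (r + 1) * ℓ = ℓ ^ (r + 2) := by ring
    have e4 : ℓ ^ (r + 1) / ℓ = ℓ ^ r := by
      rw [pow_succ]; exact Nat.mul_div_cancel _ hℓ.pos
    rw [e1, e2, ih1, ih0] at A
    rw [e3, e4] at B
    linear_combination A - c n * B

theorem seq_mult (c e : ℕ → ℂ) (h1 : c 1 = 1)
    (h : ∀ ℓ : ℕ, ℓ.Prime → ∀ n : ℕ,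
      c (n * ℓ) + (if ℓ ∣ n then e ℓ * c (n / ℓ) else 0) = c ℓ * c n) :
    ∀ m n : ℕ, m.Coprime n → c (m * n) = c m * c n := by
  intro m
  induction m using Nat.recOnPosPrimePosCoprime with
  | prime_pow p r hp hr =>
    intro n hn
    apply seq_pp c e h1 h p hp n
    intro hdvd
    have : p ∣ Nat.gcd (p ^ r) n := Nat.dvd_gcd (dvd_pow_self p hr.ne') hdvd
    rw [hn] at this
    exact hp.one_lt.ne' (Nat.dvd_one.mp this)
  | zero =>
    intro n hn
    have : n = 1 := by simpa using hn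
    subst this
    simp [h1]
  | one => intro n _; simp [h1]
  | coprime a b ha hb hab iha ihb =>
    intro n hn
    have han : a.Coprime n := Nat.Coprime.coprime_mul_right hn
    have hbn : b.Coprime n := Nat.Coprime.coprime_mul_left hn
    rw [mul_assoc, iha (b * n) (Nat.Coprime.mul_right hab han), ihb n hbn, iha b hab, mul_assoc]

/-- If the first coefficient vanishes, the whole sequence vanishes. -/
theorem seq_zero (b e μ : ℕ → ℂ) (h0 : b 0 = 0) (h1 : b 1 = 0)
    (h : ∀ ℓ : ℕ, ℓ.Prime → ∀ n : ℕ,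
      b (n * ℓ) + (if ℓ ∣ n then e ℓ * b (n / ℓ) else 0) = μ ℓ * b n) :
    ∀ n : ℕ, b n = 0 := by
  intro n
  induction n using Nat.strong_induction_on with
  | _ n ih =>
    rcases Nat.lt_or_ge n 2 with hn | hn
    · interval_cases n
      · exact h0
      · exact h1
    · have hp : (Nat.minFac n).Prime := Nat.minFac_prime (by omega)
      obtain ⟨m, hm⟩ := Nat.minFac_dvd n
      set ℓ := Nat.minFac n with hℓ
      have hmn : m < n := by
        have h2 := hp.two_le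
        have hmpos : 0 < m := by
          rcases Nat.eq_zero_or_pos m with h | h
          · subst h; omega
          · exact h
        calc m < ℓ * m := by nlinarith
          _ = n := hm.symm
      have A := h ℓ hp m
      rw [ih m hmn, mul_zero] at A
      have hdiv : b (m / ℓ) = 0 := ih _ (lt_of_le_of_lt (Nat.div_le_self _ _) hmn)
      rw [hdiv, mul_zero, ite_self, add_zero, mul_comm m ℓ, ← hm] at A
      exact A

end Fermat.Agent.S49
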